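import Fermat.Agent.S59.LoSqC.H456.R3Std
import Fermat.Agent.S59.LoSqC.H550.Ord12

/-!
# S59 moonshot, cell (C) LO-SQ: TH1 at level `M q`, UNCONDITIONAL (helper456, OFF-MAIN)

ORD12 is closed by helper550 (`H550.ord12_h550 : H807.Ord12Statement`); plugged into
`Th1Ord12.lean` / `R3Std.lean`:

* `th1At4`            : `Th1At4Statement P E M q w`
                        (`R3Hyp → Unram → 4 ∣ M → 5 ≤ q →` conclusion of `H803.Th1Statement`);
* `th1_std`           : the same in the binder `Mod3.Std` (neat level, `5 ≤ q`);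
* `principalAt_std`   : `Eng.PrincipalAt` of both components at every node of `Bfin`;
* `principalAt_chart_std` : the same on `S18.H138.chart R {xE}` (the chart `Bf'` of `TripleCtx`);
* `ordAt_eq_twelve`   : `ord_n(D | C₀) = 12` at every node;
* `twelve_mul_card_nodes` : DEG0 ⟹ `12 · #nodes = (q - 1) ψ(M)`.
-/

set_option autoImplicit false
set_option linter.unusedSectionVars false
set_option linter.unusedVariables false
set_option linter.style.haveILetI false
set_option synthInstance.maxHeartbeats 400000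
set_option maxHeartbeats 1600000

noncomputable section

namespace Fermat.Agent.S59.LoSqC.H456

open ModularCurve Fermat.Agent.A2.Mod Fermat.Agent.S36.H803 Fermat.Agent.S59.H807
open Fermat.Agent.S36 Fermat.Agent.S36.Mod3

variable (P : ValuationSubring Qb) (E : IntermediateField ℚ Qb) (M q : ℕ) [NeZero M] [NeZero q]
  (w : RE P E)

/-- **TH1 at `4 ∣ M`, `5 ≤ q`**, unconditional. -/
theorem th1At4 : Th1At4Statement P E M q w :=
  th1At4_of_ord12 P E M q w (Fermat.Agent.S59.LoSqC.H550.ord12_h550 P E M q w)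

/-- `ord_n(D | C₀) = 12` at every node, unconditional. -/
theorem ordAt_eq_twelve (hyp : R3Hyp P E M q w) (hunr : Unram P E q w) (h4 : 4 ∣ M) (h5 : 5 ≤ q)
    (D : Bfin P E M q) (hD : IsD E M q (D : FE E (M * q)))
    (p₁ p₂ : Ideal (Bfin P E M q)) (hcomp : IsComponents P E M q w p₁ p₂)
    (n : Ideal (Bfin P E M q)) (hn : IsNode P E M q p₁ p₂ n) :
    ordAt p₂ n D = ((12 : ℕ) : ℕ∞) :=
  ordAt_eq_twelve_of_ord12 P E M q w (Fermat.Agent.S59.LoSqC.H550.ord12_h550 P E M q w)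
    hyp hunr h4 h5 D hD p₁ p₂ hcomp n hn

/-- DEG0 ⟹ exact node count `12 · #nodes = (q - 1) ψ(M)`. -/
theorem twelve_mul_card_nodes (hDEG : Deg0Statement P E M q w)
    (hyp : R3Hyp P E M q w) (hunr : Unram P E q w) (h4 : 4 ∣ M) (h5 : 5 ≤ q)
    (p₁ p₂ : Ideal (Bfin P E M q)) (hcomp : IsComponents P E M q w p₁ p₂) :
    ∃ s : Finset (Ideal (Bfin P E M q)), (∀ n, n ∈ s ↔ IsNode P E M q p₁ p₂ n) ∧
      12 * s.card = (q - 1) * dedekindPsi M :=
  twelve_mul_card_nodes_of_ord12 P E M q w hDEG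
    (Fermat.Agent.S59.LoSqC.H550.ord12_h550 P E M q w) hyp hunr h4 h5 p₁ p₂ hcomp

variable [NeZero (M * q)]

/-- **TH1 in the standard binder**, unconditional. -/
theorem th1_std (hStd : Std P E M q w) (h5 : 5 ≤ q)
    (p₁ p₂ : Ideal (Bfin P E M q)) (hcomp : IsComponents P E M q w p₁ p₂)
    (n : Ideal (Bfin P E M q)) (hn : IsNode P E M q p₁ p₂ n) :
    (∃ x₁ ∈ p₁, ∀ a ∈ p₁, ∃ g : Bfin P E M q, g ∉ n ∧ ∃ b, g * a = x₁ * b) ∧
    (∃ x₂ ∈ p₂, ∀ a ∈ p₂, ∃ g : Bfin P E M q, g ∉ n ∧ ∃ b, g * a = x₂ * b) :=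
  th1_of_std P E M q w (Fermat.Agent.S59.LoSqC.H550.ord12_h550 P E M q w) hStd h5 p₁ p₂ hcomp n hn

open Fermat.Agent.S36.Eng in
/-- **Regularity at the nodes of the level `M q`**, `Eng` vocabulary, unconditional. -/
theorem principalAt_std (hStd : Std P E M q w) (h5 : 5 ≤ q)
    (V : ValuationSubring (FE E (M * q))) (W : FE E (M * q) ≃ₐ[E] FE E (M * q))
    (hV : IsVinf P E (M * q) V) (hW : IsFricke E (M * q) W)
    (𝔪 : Ideal (Bfin P E M q)) (h𝔪 : 𝔪.IsMaximal)
    (h₁ : Through (Bfin P E M q) 𝔪 V)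
    (h₂ : Through (Bfin P E M q) 𝔪 (V.comap (W : FE E (M * q) →+* FE E (M * q)))) :
    PrincipalAt (Bfin P E M q) 𝔪 V ∧
      PrincipalAt (Bfin P E M q) 𝔪 (V.comap (W : FE E (M * q) →+* FE E (M * q))) :=
  principalAt_of_std P E M q w (Fermat.Agent.S59.LoSqC.H550.ord12_h550 P E M q w) hStd h5
    V W hV hW 𝔪 h𝔪 h₁ h₂

open Fermat.Agent.S36.Eng Fermat.Agent.S18.H138 in
/-- The same on `S18.H138.chart R {x'}`, `x' = xE` (the chart `Bf'` of `Eng.TripleCtx`). -/
theorem principalAt_chart_std (hStd : Std P E M q w) (h5 : 5 ≤ q)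
    (V : ValuationSubring (FE E (M * q))) (W : FE E (M * q) ≃ₐ[E] FE E (M * q))
    (hV : IsVinf P E (M * q) V) (hW : IsFricke E (M * q) W)
    (𝔪 : Ideal (chart (RE P E) ({xE E M q} : Set (FE E (M * q))))) (h𝔪 : 𝔪.IsMaximal)
    (h₁ : Through (chart (RE P E) ({xE E M q} : Set (FE E (M * q)))) 𝔪 V)
    (h₂ : Through (chart (RE P E) ({xE E M q} : Set (FE E (M * q)))) 𝔪
      (V.comap (W : FE E (M * q) →+* FE E (M * q)))) :
    PrincipalAt (chart (RE P E) ({xE E M q} : Set (FE E (M * q)))) 𝔪 V ∧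
      PrincipalAt (chart (RE P E) ({xE E M q} : Set (FE E (M * q)))) 𝔪
        (V.comap (W : FE E (M * q) →+* FE E (M * q))) :=
  principalAt_chart_of_std P E M q w (Fermat.Agent.S59.LoSqC.H550.ord12_h550 P E M q w) hStd h5
    V W hV hW 𝔪 h𝔪 h₁ h₂

end Fermat.Agent.S59.LoSqC.H456

end
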