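import Fermat.Agent.S59.LoSqC.H456.Th1Ord12
import Fermat.Agent.S35.G.H862.Model
import Fermat.Agent.S36.Mod3.H370.VT

/-!
# S59 moonshot, cell (C) LO-SQ: the standing hypotheses `R3Hyp` + `Unram` of the level-`M q` leaves
are PRODUCED from the standard binder `Mod3.Std` (helper456, OFF-MAIN)

The R3-vocabulary leaves at level `M q` (GUB4 / ORD12 `H807`, DEG0 `H803`, TH1, NODE-REL chart
form) are stated under `H803.R3Hyp P E M q w` (and `H803.Unram P E q w`); no producer of `R3Hyp`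
existed.  Here, from main only:

* `r3Hyp_of_setting` : `Setting` + `GoodField` + `HasAux M q` ⟹ `R3Hyp`
  (`S35.G.H862.s1/s3`, `H142.s2`, `H31.deg`, `H553.vinfExists`, `H216.goodRedHyp_of_dvr`);
* `r3Hyp_of_std`, `unram_of_std` : from `Mod3.Std P E M q w` (the binder of every MOD3 leaf);
* `four_dvd_of_std` : `q ≠ 2 → 4 ∣ M`;
* `th1_of_std` : ORD12 ⟹ both components of the level `M q` are locally principal at every node,
  in the `Mod3.Std` binder (`5 ≤ q`).
-/

set_option autoImplicit false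
set_option linter.unusedSectionVars false
set_option linter.unusedVariables false
set_option linter.style.haveILetI false
set_option synthInstance.maxHeartbeats 400000
set_option maxHeartbeats 1600000

noncomputable section

namespace Fermat.Agent.S59.LoSqC.H456

open ModularCurve Fermat.Agent.A2.Mod Fermat.Agent.S36.H803 Fermat.Agent.S59.H807
open Fermat.Agent.S36 Fermat.Agent.S36.Mod3

variable (P : ValuationSubring Qb) (E : IntermediateField ℚ Qb) (M q : ℕ) [NeZero M] [NeZero q]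
  (w : RE P E)

/-- **`R3Hyp` from the setting**: all A2-MOD outputs at level `M q` are theorems on main. -/
theorem r3Hyp_of_setting (hS : Setting P E M q w) (hG : Fermat.Agent.A2.GoodField P E)
    (hAux : Fermat.Agent.S35.G.HasAux M q) : R3Hyp P E M q w :=
  { setting := hS
    good := hG
    deg := H31.deg E M q
    s1 := Fermat.Agent.S35.G.H862.s1 P E M q w
    s2 := H142.s2 P E M q w
    s3 := Fermat.Agent.S35.G.H862.s3 P E M q w
    vinfM := H553.vinfExists P E M hS.M_ne_zero hS.dvr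
    goodRed := H216.goodRedHyp_of_dvr P E M hS.q_prime hS.q_not_dvd hAux.1 hAux.2
      hS.lies_over hS.dvr }

variable [NeZero (M * q)]

/-- The setting of a standard binder. -/
theorem setting_of_std (hStd : Std P E M q w) : Setting P E M q w :=
  ⟨hStd.q_prime, hStd.q_not_dvd, NeZero.ne M, hStd.lies_over, hStd.unram.1.dvr, hStd.unif⟩

/-- **`R3Hyp` from `Mod3.Std`.** -/
theorem r3Hyp_of_std (hStd : Std P E M q w) : R3Hyp P E M q w :=
  r3Hyp_of_setting P E M q w (setting_of_std P E M q w hStd) hStd.unram.1 hStd.neat.hasAux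

/-- **`H803.Unram` from `Mod3.Std`**: `q = ε w` with `ε` a unit of `R_E`. -/
theorem unram_of_std (hStd : Std P E M q w) : Unram P E q w := by
  have hS := setting_of_std P E M q w hStd
  obtain ⟨u, hu⟩ := Fermat.Agent.S36.Mod3.H370.unram_of_std370 (Fermat.Agent.S36.H370.SettingQ.of_setting hS) hStd.unram
  refine ⟨(u : RE P E), u.isUnit, ?_⟩
  apply Subtype.ext
  have h1 : (((q : ℕ) : RE P E) : E) = ((q : ℕ) : E) := by
    simp
  rw [h1, hu]
  push_cast
  ring

/-- `q` odd ⟹ `4 ∣ M` at a neat level. -/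
theorem four_dvd_of_std (hStd : Std P E M q w) (hq2 : q ≠ 2) : 4 ∣ M := hStd.neat.2.1 hq2

/-- **TH1 in the standard binder**: ORD12 ⟹ at a neat level `M q`, `5 ≤ q`, over an unramified
good level, both components are locally principal at every node of the finite chart. -/
theorem th1_of_std (hORD : Ord12Statement P E M q w) (hStd : Std P E M q w) (h5 : 5 ≤ q)
    (p₁ p₂ : Ideal (Bfin P E M q)) (hcomp : IsComponents P E M q w p₁ p₂)
    (n : Ideal (Bfin P E M q)) (hn : IsNode P E M q p₁ p₂ n) :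
    (∃ x₁ ∈ p₁, ∀ a ∈ p₁, ∃ g : Bfin P E M q, g ∉ n ∧ ∃ b, g * a = x₁ * b) ∧
    (∃ x₂ ∈ p₂, ∀ a ∈ p₂, ∃ g : Bfin P E M q, g ∉ n ∧ ∃ b, g * a = x₂ * b) :=
  th1At4_of_ord12 P E M q w hORD (r3Hyp_of_std P E M q w hStd) (unram_of_std P E M q w hStd)
    (four_dvd_of_std P E M q w hStd (by omega)) h5 p₁ p₂ hcomp n hn

/-! ## The `Eng` vocabulary (`Through`, `PrincipalAt`) at level `M q` -/

open Fermat.Agent.S36.Eng in
/-- The components cut out by `V∞` and `V₀ = V∞ ∘ W` exist, and `p = B ∩ 𝔪_V` for both. -/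
theorem exists_components_of_std (hStd : Std P E M q w)
    (V : ValuationSubring (FE E (M * q))) (W : FE E (M * q) ≃ₐ[E] FE E (M * q))
    (hV : IsVinf P E (M * q) V) (hW : IsFricke E (M * q) W) :
    ∃ p₁ p₂ : Ideal (Bfin P E M q), IsComponents P E M q w p₁ p₂ ∧
      (∀ b : Bfin P E M q, b ∈ p₁ ↔ (b : FE E (M * q)) ∈ V.nonunits) ∧
      (∀ b : Bfin P E M q, b ∈ p₂ ↔
        (b : FE E (M * q)) ∈ (V.comap (W : FE E (M * q) →+* FE E (M * q))).nonunits) := by
  have hS := setting_of_std P E M q w hStd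
  haveI := hS.dvr
  obtain ⟨p₁, p₂, hc₁, hc₂, -⟩ :=
    Fermat.Agent.S35.G.H862.s1 P E M q w hS V W hV hW (xE E M q) (Or.inl rfl)
  have hu : Fermat.Agent.A2.H48.IsUnif V (cE P E (M * q) w) :=
    (H553.vinfBasic P E w (M * q) (NeZero.ne _) hS.dvr hS.unif V hV).1
  have hu₂ := H13.isUnif_comap hu W
  refine ⟨p₁, p₂, ⟨V, W, hV, hW, hc₁, hc₂⟩, fun b => ?_, fun b => ?_⟩
  · rw [hc₁ b, H13.inW_iff_mem_nonunits hu]
  · rw [hc₂ b, H13.inW_iff_mem_nonunits hu₂]

open Fermat.Agent.S36.Eng in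
/-- **Regularity of the level `M q` at the nodes, `Eng` vocabulary**: ORD12 ⟹ at a neat level,
`5 ≤ q`, at every closed point `𝔪` of the finite chart through which BOTH components pass, both
components are locally principal (`Eng.PrincipalAt`): the level-`M q` analogue of
`TripleCtx.regular_f`. -/
theorem principalAt_of_std (hORD : Ord12Statement P E M q w) (hStd : Std P E M q w) (h5 : 5 ≤ q)
    (V : ValuationSubring (FE E (M * q))) (W : FE E (M * q) ≃ₐ[E] FE E (M * q))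
    (hV : IsVinf P E (M * q) V) (hW : IsFricke E (M * q) W)
    (𝔪 : Ideal (Bfin P E M q)) (h𝔪 : 𝔪.IsMaximal)
    (h₁ : Through (Bfin P E M q) 𝔪 V)
    (h₂ : Through (Bfin P E M q) 𝔪 (V.comap (W : FE E (M * q) →+* FE E (M * q)))) :
    PrincipalAt (Bfin P E M q) 𝔪 V ∧
      PrincipalAt (Bfin P E M q) 𝔪 (V.comap (W : FE E (M * q) →+* FE E (M * q))) := by
  obtain ⟨p₁, p₂, hcomp, hp₁, hp₂⟩ := exists_components_of_std P E M q w hStd V W hV hW
  have hn : IsNode P E M q p₁ p₂ 𝔪 :=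
    ⟨h𝔪, fun b hb => h₁ b ((hp₁ b).1 hb), fun b hb => h₂ b ((hp₂ b).1 hb)⟩
  obtain ⟨⟨x₁, hx₁, hg₁⟩, ⟨x₂, hx₂, hg₂⟩⟩ := th1_of_std P E M q w hORD hStd h5 p₁ p₂ hcomp 𝔪 hn
  refine ⟨⟨x₁, (hp₁ x₁).1 hx₁, fun a ha => ?_⟩, ⟨x₂, (hp₂ x₂).1 hx₂, fun a ha => ?_⟩⟩
  · obtain ⟨g, hg, b, hb⟩ := hg₁ a ((hp₁ a).2 ha)
    exact ⟨g, b, hg, hb⟩
  · obtain ⟨g, hg, b, hb⟩ := hg₂ a ((hp₂ a).2 ha)
    exact ⟨g, b, hg, hb⟩

open Fermat.Agent.S36.Eng Fermat.Agent.S18.H138 in
/-- The same on `S18.H138.chart R {x'}` (the chart `Bf'` of `Eng.TripleCtx`, `x' = xE`). -/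
theorem principalAt_chart_of_std (hORD : Ord12Statement P E M q w) (hStd : Std P E M q w)
    (h5 : 5 ≤ q)
    (V : ValuationSubring (FE E (M * q))) (W : FE E (M * q) ≃ₐ[E] FE E (M * q))
    (hV : IsVinf P E (M * q) V) (hW : IsFricke E (M * q) W)
    (𝔪 : Ideal (chart (RE P E) ({xE E M q} : Set (FE E (M * q))))) (h𝔪 : 𝔪.IsMaximal)
    (h₁ : Through (chart (RE P E) ({xE E M q} : Set (FE E (M * q)))) 𝔪 V)
    (h₂ : Through (chart (RE P E) ({xE E M q} : Set (FE E (M * q)))) 𝔪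
      (V.comap (W : FE E (M * q) →+* FE E (M * q)))) :
    PrincipalAt (chart (RE P E) ({xE E M q} : Set (FE E (M * q)))) 𝔪 V ∧
      PrincipalAt (chart (RE P E) ({xE E M q} : Set (FE E (M * q)))) 𝔪
        (V.comap (W : FE E (M * q) →+* FE E (M * q))) :=
  principalAt_of_std P E M q w hORD hStd h5 V W hV hW 𝔪 h𝔪 h₁ h₂

end Fermat.Agent.S59.LoSqC.H456

end
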