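import Fermat.Agent.S36.H803.R3Asm
import Fermat.Agent.S59.H807.GubSpec

/-!
# S59 moonshot, cell (C) LO-SQ: TH1 at level `M q` from ORD12 (helper456, OFF-MAIN)

Level `M * q`, `q ∤ M`, vocabulary of `S36/H803/R3Spec.lean` (finite chart `Bfin`, components
`p₁`, `p₂`, nodes).  The leaves NODE-REL / NODE-PURE / SURJ-E of cell (C) consume the conclusion
of `H803.Th1Statement` (both components are locally principal at every node: the model of level
`M q` is REGULAR at the nodes) as a hypothesis.  Here it is PRODUCED from the leaf ORD12 of the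
GUB owner (`H807.Ord12Statement`: `D ∈ p₂ + n ^ 12` at every node, `D = q¹² Δ(t^q)/Δ(t)`):

* local upper bound `ord_n(D | C₀) ≤ 12` (`H803.ordAt_le_of_ssChart`, unit pair `D D' = q¹²`),
* ORD12 gives `12 ≤ ord_n(D | C₀)`,
* equality ⟹ locally principal (`H803.th1_of_ssChart` applied to the ONE-POINT set `{n}`).

No DEG0, no GUB, no genus, no rigidity is used.

* `Th1At4Statement`   : TH1 with `Rigid M` replaced by `4 ∣ M ∧ 5 ≤ q`.
* `th1At4_of_ord12`   : `H807.Ord12Statement → Th1At4Statement`.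
* `ordAt_eq_twelve_of_ord12` : `ord_n(D | C₀) = 12` at every node.
* `twelve_mul_card_nodes_of_ord12` : with DEG0, `12 · #nodes = (q - 1) ψ(M)` (EXACT node count).
-/

set_option autoImplicit false
set_option linter.unusedSectionVars false
set_option linter.unusedVariables false
set_option linter.style.haveILetI false
set_option synthInstance.maxHeartbeats 400000
set_option maxHeartbeats 1600000

noncomputable section

namespace Fermat.Agent.S59.LoSqC.H456

open ModularCurve Fermat.Agent.A2.Mod Fermat.Agent.S36.H803 Fermat.Agent.S59.H807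

variable (P : ValuationSubring Qb) (E : IntermediateField ℚ Qb) (M q : ℕ) [NeZero M] [NeZero q]
  (w : RE P E)

/-- **TH1 at `4 ∣ M`, `5 ≤ q`** (thickness one at the nodes of the level `M q`): over an
unramified base both components of the special fibre are locally principal at every node. -/
def Th1At4Statement : Prop :=
  R3Hyp P E M q w → Unram P E q w → 4 ∣ M → 5 ≤ q →
    ∀ p₁ p₂ : Ideal (Bfin P E M q), IsComponents P E M q w p₁ p₂ →
      ∀ n : Ideal (Bfin P E M q), IsNode P E M q p₁ p₂ n →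
        (∃ x₁ ∈ p₁, ∀ a ∈ p₁, ∃ g : Bfin P E M q, g ∉ n ∧ ∃ b, g * a = x₁ * b) ∧
        (∃ x₂ ∈ p₂, ∀ a ∈ p₂, ∃ g : Bfin P E M q, g ∉ n ∧ ∃ b, g * a = x₂ * b)

/-- The unit pair `(D, D')` of exponent `12` on the semistable chart, over an unramified base. -/
theorem chartUnitPair_of_unram (hyp : R3Hyp P E M q w) (hunr : Unram P E q w)
    (c : Fermat.Agent.A2.SSChart w (Bfin P E M q))
    (hcomp : IsComponents P E M q w c.p₁ c.p₂)
    (D D' : Bfin P E M q) (hD : IsD E M q (D : FE E (M * q)))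
    (hD' : IsD' E M q (D' : FE E (M * q)))
    (hmu : ∀ p₁ p₂ : Ideal (Bfin P E M q), IsComponents P E M q w p₁ p₂ → D' ∉ p₁ ∧ D ∉ p₂) :
    ChartUnitPair w (Bfin P E M q) c D D' 12 := by
  obtain ⟨hD'₁, hD₂⟩ := hmu c.p₁ c.p₂ hcomp
  obtain ⟨ε, hε, hq⟩ := hunr
  exact
    { pos := by norm_num
      eq := ⟨algebraMap (RE P E) (Bfin P E M q) (ε ^ 12), (hε.pow 12).map _, by
        rw [mul_eq_of_isD P E M q hD hD', hq, mul_pow, map_mul, map_pow, map_pow]⟩
      notMem₁ := hD'₁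
      notMem₂ := hD₂ }

/-- **`ord_n(D | C₀) = 12`** at every node, from ORD12 and the local upper bound. -/
theorem ordAt_eq_twelve_of_ord12 (hORD : Ord12Statement P E M q w)
    (hyp : R3Hyp P E M q w) (hunr : Unram P E q w) (h4 : 4 ∣ M) (h5 : 5 ≤ q)
    (D : Bfin P E M q) (hD : IsD E M q (D : FE E (M * q)))
    (p₁ p₂ : Ideal (Bfin P E M q)) (hcomp : IsComponents P E M q w p₁ p₂)
    (n : Ideal (Bfin P E M q)) (hn : IsNode P E M q p₁ p₂ n) :
    ordAt p₂ n D = ((12 : ℕ) : ℕ∞) := by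
  classical
  haveI := hyp.setting.dvr
  obtain ⟨c, rfl, rfl⟩ := exists_ssChart_of_components P E M q w hyp p₁ p₂ hcomp
  obtain ⟨D₀, D', hD₀, hD', hmu⟩ := mu P E M q w hyp
  -- `D` is determined by its expansion
  have hDD : D = D₀ := by
    apply Subtype.ext
    apply Subtype.ext
    show ((D : FE E (M * q)) : LaurentSeries E) = ((D₀ : FE E (M * q)) : LaurentSeries E)
    rw [hD, hD₀]
  subst hDD
  have hpair := chartUnitPair_of_unram P E M q w hyp hunr c hcomp D D' hD hD' hmu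
  have hB := chartCtx_bfin P E M q w hyp
  obtain ⟨hmax, h₁, h₂⟩ := hn
  have hle : ordAt c.p₂ n D ≤ ((12 : ℕ) : ℕ∞) :=
    ordAt_le_of_ssChart w (xE E M q) (Bfin P E M q) hB c D D' 12 hpair n hmax h₁ h₂
  have hge : ((12 : ℕ) : ℕ∞) ≤ ordAt c.p₂ n D := by
    obtain ⟨hnoeth, hic, hfrac⟩ := Fermat.Agent.A2.Alg.H34.chart_instances' w (xE E M q)
      (Bfin P E M q) hB
    haveI := c.prime₂
    haveI : IsIntegrallyClosed (Bfin P E M q ⧸ c.p₂) := c.normal₂
    have hw : algebraMap (RE P E) (Bfin P E M q) w ∈ c.p₁ ⊓ c.p₂ := by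
      rw [c.inf_eq]
      exact Ideal.mem_span_singleton_self _
    haveI : IsDedekindDomain (Bfin P E M q ⧸ c.p₂) :=
      Fermat.Agent.A2.Alg.H609.isDedekindDomain_quotient_chart w (xE E M q) (Bfin P E M q) hB
        c.p₂ hw.2
    haveI := hmax
    rw [le_ordAt_iff c.p₂ n h₂]
    exact hORD hyp h4 h5 D hD c.p₁ c.p₂ hcomp n ⟨hmax, h₁, h₂⟩
  exact le_antisymm hle hge

/-- **TH1 from ORD12**: at `4 ∣ M`, `5 ≤ q`, over an unramified base, the model of level `M q`
is regular at every node. -/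
theorem th1At4_of_ord12 (hORD : Ord12Statement P E M q w) : Th1At4Statement P E M q w := by
  intro hyp hunr h4 h5 p₁ p₂ hcomp n hn
  classical
  haveI := hyp.setting.dvr
  obtain ⟨D, D', hD, hD', hmu⟩ := mu P E M q w hyp
  have heq := ordAt_eq_twelve_of_ord12 P E M q w hORD hyp hunr h4 h5 D hD p₁ p₂ hcomp n hn
  obtain ⟨c, rfl, rfl⟩ := exists_ssChart_of_components P E M q w hyp p₁ p₂ hcomp
  have hpair := chartUnitPair_of_unram P E M q w hyp hunr c hcomp D D' hD hD' hmu
  have hB := chartCtx_bfin P E M q w hyp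
  obtain ⟨hmax, h₁, h₂⟩ := hn
  refine th1_of_ssChart w (xE E M q) (Bfin P E M q) hB c D D' 12 hpair {n} ?_ 12 ?_ ?_ n
    (Finset.mem_singleton_self n)
  · intro n' hn'
    rw [Finset.mem_singleton.1 hn']
    exact ⟨hmax, h₁, h₂⟩
  · rw [Finset.sum_singleton]
    exact heq
  · simp

/-- **Exact node count**: with DEG0 and ORD12, `12 · #nodes = (q - 1) ψ(M)`. -/
theorem twelve_mul_card_nodes_of_ord12 (hDEG : Deg0Statement P E M q w)
    (hORD : Ord12Statement P E M q w)
    (hyp : R3Hyp P E M q w) (hunr : Unram P E q w) (h4 : 4 ∣ M) (h5 : 5 ≤ q)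
    (p₁ p₂ : Ideal (Bfin P E M q)) (hcomp : IsComponents P E M q w p₁ p₂) :
    ∃ s : Finset (Ideal (Bfin P E M q)), (∀ n, n ∈ s ↔ IsNode P E M q p₁ p₂ n) ∧
      12 * s.card = (q - 1) * dedekindPsi M := by
  classical
  obtain ⟨D, D', hD, hD', hmu⟩ := mu P E M q w hyp
  obtain ⟨s, hs, hsum⟩ := hDEG hyp D hD p₁ p₂ hcomp
  refine ⟨s, hs, ?_⟩
  have h12 : ∀ n ∈ s, ordAt p₂ n D = ((12 : ℕ) : ℕ∞) := fun n hn =>
    ordAt_eq_twelve_of_ord12 P E M q w hORD hyp hunr h4 h5 D hD p₁ p₂ hcomp n ((hs n).1 hn)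
  have hsum' : ∑ n ∈ s, ordAt p₂ n D = ((12 * s.card : ℕ) : ℕ∞) := by
    rw [Finset.sum_congr rfl h12, Finset.sum_const, nsmul_eq_mul]
    push_cast
    ring
  rw [hsum'] at hsum
  exact_mod_cast hsum

end Fermat.Agent.S59.LoSqC.H456

end
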